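import Mathlib
import Fermat.Agent.H29.ES1.Interfaces

/-!
# P-ES1, row ES1-LEVEL (helper46)

`gamma1Residual_of_five : Gamma1ResidualStatement5 → Gamma1ResidualStatement`.

Raising the level `M ↦ M' := M * ℓ ^ 3` (which is `≥ 8`, and has the same prime divisors as `M`
away from `ℓ`): a cusp form on `Γ₁(M)` is a cusp form on `Γ₁(M')` with the same `q`-expansion, the
nebentypus `ψ` becomes `ψ.changeLevel`, and `p ∤ M' ℓ ↔ p ∤ M ℓ`.
-/

set_option autoImplicit false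

open CongruenceSubgroup
open scoped MatrixGroups ModularForm

namespace Fermat.Agent.H46.ES1

open Fermat.Agent.H20.DS

/-- `Γ₁(M') ≤ Γ₁(M)` for `M ∣ M'`. -/
lemma Gamma1_le_of_dvd {M M' : ℕ} (hd : M ∣ M') : Gamma1 M' ≤ Gamma1 M := by
  intro γ hγ
  rw [Gamma1_mem] at hγ ⊢
  obtain ⟨h00, h11, h10⟩ := hγ
  refine ⟨?_, ?_, ?_⟩
  · have := congrArg (ZMod.castHom hd (ZMod M)) h00
    rwa [map_intCast, map_one] at this
  · have := congrArg (ZMod.castHom hd (ZMod M)) h11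
    rwa [map_intCast, map_one] at this
  · have := congrArg (ZMod.castHom hd (ZMod M)) h10
    rwa [map_intCast, map_zero] at this

/-- `Γ₀(M') ≤ Γ₀(M)` for `M ∣ M'`. -/
lemma Gamma0_le_of_dvd {M M' : ℕ} (hd : M ∣ M') : Gamma0 M' ≤ Gamma0 M := by
  intro γ hγ
  rw [Gamma0_mem] at hγ ⊢
  have := congrArg (ZMod.castHom hd (ZMod M)) hγ
  rwa [map_intCast, map_zero] at this

lemma Gamma1_le_of_dvd_GL {M M' : ℕ} (hd : M ∣ M') :
    (Subgroup.map (Matrix.SpecialLinearGroup.mapGL ℝ) (Gamma1 M')) ≤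
      Subgroup.map (Matrix.SpecialLinearGroup.mapGL ℝ) (Gamma1 M) :=
  Subgroup.map_mono (Gamma1_le_of_dvd hd)

/-- A cusp form on `Γ₁(M)`, viewed as a cusp form on `Γ₁(M')`, `M ∣ M'`. -/
def raiseLevel {M M' : ℕ} (hd : M ∣ M') {k : ℤ} (h : CuspForm (Gamma1 M) k) :
    CuspForm (Gamma1 M') k where
  toFun := h
  slash_action_eq' γ hγ := h.slash_action_eq' γ (Gamma1_le_of_dvd_GL hd hγ)
  holo' := h.holo'
  zero_at_cusps' hc := h.zero_at_cusps' (hc.mono (Gamma1_le_of_dvd_GL hd))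

@[simp] lemma coe_raiseLevel {M M' : ℕ} (hd : M ∣ M') {k : ℤ} (h : CuspForm (Gamma1 M) k) :
    ⇑(raiseLevel hd h) = ⇑h := rfl

lemma qCoeff_raiseLevel {M M' : ℕ} (hd : M ∣ M') {k : ℤ} (h : CuspForm (Gamma1 M) k) (n : ℕ) :
    ModularFormClass.qCoeff (raiseLevel hd h) n = ModularFormClass.qCoeff h n := rfl

/-- The lower right entry of an element of `Γ₀(M')` is a unit modulo `M'`. -/
lemma isUnit_lowerRight {M' : ℕ} (γ : SL(2, ℤ)) (hγ : γ ∈ Gamma0 M') :
    IsUnit ((((γ : Matrix (Fin 2) (Fin 2) ℤ) 1 1 : ℤ)) : ZMod M') := by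
  rw [Gamma0_mem] at hγ
  have hdet : (γ : Matrix (Fin 2) (Fin 2) ℤ) 0 0 * (γ : Matrix (Fin 2) (Fin 2) ℤ) 1 1
      - (γ : Matrix (Fin 2) (Fin 2) ℤ) 0 1 * (γ : Matrix (Fin 2) (Fin 2) ℤ) 1 0 = 1 := by
    have := γ.det_coe
    rw [Matrix.det_fin_two] at this
    exact this
  have h2 := congrArg (Int.cast : ℤ → ZMod M') hdet
  push_cast at h2
  rw [hγ, mul_zero, sub_zero] at h2
  exact IsUnit.of_mul_eq_one _ (by rw [mul_comm]; exact h2)

/-- `changeLevel` on integers which are units modulo the larger level. -/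
lemma changeLevel_intCast {M M' : ℕ} (hd : M ∣ M') (ψ : DirichletCharacter ℂ M) (a : ℤ)
    (ha : IsUnit ((a : ℤ) : ZMod M')) :
    DirichletCharacter.changeLevel hd ψ ((a : ℤ) : ZMod M') = ψ ((a : ℤ) : ZMod M) := by
  obtain ⟨u, hu⟩ := ha
  rw [← hu, DirichletCharacter.changeLevel_eq_cast_of_dvd ψ hd u, hu, ZMod.cast_intCast hd]

/-- `changeLevel` on natural numbers which are coprime to the larger level. -/
lemma changeLevel_natCast {M M' : ℕ} (hd : M ∣ M') (ψ : DirichletCharacter ℂ M) (a : ℕ)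
    (ha : Nat.Coprime a M') :
    DirichletCharacter.changeLevel hd ψ ((a : ℕ) : ZMod M') = ψ ((a : ℕ) : ZMod M) := by
  have h := DirichletCharacter.changeLevel_eq_cast_of_dvd ψ hd (ZMod.unitOfCoprime a ha)
  rw [ZMod.coe_unitOfCoprime, ZMod.cast_natCast hd] at h
  exact h

/-- Raising the level preserves `IsModEigen` (with the same reduced data). -/
lemma isModEigen_raiseLevel {M M' : ℕ} (hd : M ∣ M') (ψ : DirichletCharacter ℂ M)
    (h : CuspForm (Gamma1 M) 2) {k : Type} [Field k] (φ : Zbar →+* k) (abar dbar : ℕ → k)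
    (H : IsModEigen ψ h φ abar dbar) :
    IsModEigen (DirichletCharacter.changeLevel hd ψ) (raiseLevel hd h) φ abar dbar where
  nebentypus := by
    intro γ hγ
    rw [coe_raiseLevel, changeLevel_intCast hd ψ _ (isUnit_lowerRight γ hγ)]
    exact H.nebentypus γ (Gamma0_le_of_dvd hd hγ)
  red_coeff := fun n => H.red_coeff n
  red_det := by
    intro p hp hpM'
    have hpM : ¬ p ∣ M := fun hpM => hpM' (hpM.trans hd)
    have hcop : Nat.Coprime p M' := (Nat.Prime.coprime_iff_not_dvd hp).2 hpM'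
    rw [changeLevel_natCast hd ψ p hcop]
    exact H.red_det p hp hpM
  one := H.one
  hecke := by
    intro p hp hpM' n
    have hpM : ¬ p ∣ M := fun hpM => hpM' (hpM.trans hd)
    exact H.hecke p hp hpM n

/-- **ES1-LEVEL.**  The residual statement for all levels follows from the one for levels `≥ 5`,
by raising the level from `M` to `M * ℓ ^ 3`. -/
theorem gamma1Residual_of_five (h5 : Fermat.Agent.H29.ES1.Gamma1ResidualStatement5) :
    Fermat.Agent.H20.DS.Gamma1ResidualStatement := by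
  intro M _ ψ h ℓ hℓ k _ _ φ abar dbar H
  have hM0 : 0 < M := Nat.pos_of_ne_zero (NeZero.ne M)
  have hℓ2 : 2 ≤ ℓ := hℓ.two_le
  have hd : M ∣ M * ℓ ^ 3 := Dvd.intro _ rfl
  have hne : NeZero (M * ℓ ^ 3) := ⟨by positivity⟩
  have h8 : 5 ≤ M * ℓ ^ 3 := by
    have h1 : 2 ^ 3 ≤ ℓ ^ 3 := Nat.pow_le_pow_left hℓ2 3
    have h2 : 1 * ℓ ^ 3 ≤ M * ℓ ^ 3 := Nat.mul_le_mul_right _ hM0
    omega
  obtain ⟨ρ, hρ⟩ := h5 (M * ℓ ^ 3) h8 (DirichletCharacter.changeLevel hd ψ) (raiseLevel hd h)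
    ℓ hℓ k φ abar dbar (isModEigen_raiseLevel hd ψ h φ abar dbar H)
  refine ⟨ρ, fun p hp hpMℓ => hρ p hp ?_⟩
  intro hdiv
  apply hpMℓ
  rcases (Nat.Prime.dvd_mul hp).1 hdiv with h1 | h1
  · rcases (Nat.Prime.dvd_mul hp).1 h1 with h2 | h2
    · exact h2.mul_right ℓ
    · exact (hp.dvd_of_dvd_pow h2).mul_left M
  · exact h1.mul_left M

end Fermat.Agent.H46.ES1
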